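import Mathlib

/-!
# Parallel flats

The indicator of the common zeros has degree at most `(q - 1) d`. That of a flat of dimension
`≥ d` has degree at most `(q - 1) (n - d)`, and for parallel flats the leading parts agree, so
the difference of the products sums to zero over all points.
-/

set_option autoImplicit false

noncomputable section

open MvPolynomial Finset Module
open Classical

namespace FA.WarningSecond

variable {K σ ι : Type*} [Field K] [Fintype K] [Fintype σ]

/-- The degree of a system. -/
def sysDegree (s : Finset ι) (f : ι → MvPolynomial σ K) : ℕ :=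
  ∑ i ∈ s, (f i).totalDegree

/-- The common zeros. -/
def zeros (s : Finset ι) (f : ι → MvPolynomial σ K) : Finset (σ → K) :=
  univ.filter fun x => ∀ i ∈ s, eval x (f i) = 0

theorem mem_zeros {s : Finset ι} {f : ι → MvPolynomial σ K} {x : σ → K} :
    x ∈ zeros s f ↔ ∀ i ∈ s, eval x (f i) = 0 := by
  simp [zeros]

/-- The zeros on the flat `a + W`. -/
def onFlat (s : Finset ι) (f : ι → MvPolynomial σ K) (a : σ → K) (W : Submodule K (σ → K)) :
    Finset (σ → K) :=
  (zeros s f).filter fun x => x - a ∈ W

omit [Fintype σ] in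
theorem totalDegree_indicator (g : MvPolynomial σ K) :
    (1 - g ^ (Fintype.card K - 1)).totalDegree ≤ (Fintype.card K - 1) * g.totalDegree := by
  refine (totalDegree_sub _ _).trans ?_
  simp only [totalDegree_one, Nat.zero_le, max_eq_right]
  exact totalDegree_pow _ _

omit [Fintype K] [Fintype σ] in
theorem totalDegree_pow_sub_pow {u : MvPolynomial σ K} (hu : u.totalDegree ≤ 1) (c c' : K)
    (m : ℕ) : ((u - C c) ^ m - (u - C c') ^ m).totalDegree ≤ m - 1 := by
  rcases m with _ | m
  · simp
  rw [← geom_sum₂_mul, show u - C c - (u - C c') = C (c' - c) by rw [map_sub]; ring,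
    Nat.add_sub_cancel]
  refine (totalDegree_mul _ _).trans ?_
  rw [totalDegree_C, add_zero]
  refine (totalDegree_finsetSum _ _).trans (Finset.sup_le fun i hi => ?_)
  have hi' : i < m + 1 := mem_range.1 hi
  have h1 : ∀ (b : K) (j : ℕ), ((u - C b) ^ j).totalDegree ≤ j := fun b j =>
    (totalDegree_pow _ _).trans (by
      have : (u - C b).totalDegree ≤ 1 := (totalDegree_sub _ _).trans (by simp [hu])
      exact (Nat.mul_le_mul_left j this).trans_eq (mul_one j))
  refine (totalDegree_mul _ _).trans ?_
  have := h1 c i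
  have := h1 c' (m - i)
  omega

omit [Fintype K] [Fintype σ] in
theorem totalDegree_prod_sub_prod {κ : Type*} (t : Finset κ) (A B : κ → MvPolynomial σ K)
    {m : ℕ} (hA : ∀ k, (A k).totalDegree ≤ m) (hB : ∀ k, (B k).totalDegree ≤ m)
    (hAB : ∀ k, (A k - B k).totalDegree ≤ m - 1) :
    (∏ k ∈ t, A k - ∏ k ∈ t, B k).totalDegree ≤ #t * m - 1 := by
  induction t using Finset.induction_on with
  | empty => simp
  | insert k t hk ih =>
    rw [prod_insert hk, prod_insert hk, card_insert_of_notMem hk,
      show A k * ∏ i ∈ t, A i - B k * ∏ i ∈ t, B i =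
        A k * (∏ i ∈ t, A i - ∏ i ∈ t, B i) + (A k - B k) * ∏ i ∈ t, B i by ring]
    rcases Nat.eq_zero_or_pos #t with h | h
    · rw [card_eq_zero.1 h]
      simpa using hAB k
    rcases Nat.eq_zero_or_pos m with rfl | hm
    · have hprod : (∏ i ∈ t, B i).totalDegree ≤ 0 := (totalDegree_finsetProd _ _).trans
        (sum_nonpos fun i _ => hB i)
      refine (totalDegree_add _ _).trans (max_le ?_ ?_) <;>
        refine (totalDegree_mul _ _).trans ?_
      · have := hA k
        simp only [mul_zero] at ih ⊢
        omega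
      · have := hAB k
        simp only [mul_zero] at ih ⊢
        omega
    have hm1 : m ≤ #t * m := Nat.le_mul_of_pos_left m h
    have hprod : (∏ i ∈ t, B i).totalDegree ≤ #t * m := (totalDegree_finsetProd _ _).trans
      ((sum_le_card_nsmul _ _ _ fun i _ => hB i).trans_eq (smul_eq_mul _ _))
    rw [Nat.succ_mul]
    refine (totalDegree_add _ _).trans (max_le ?_ ?_) <;>
      refine (totalDegree_mul _ _).trans ?_
    · have := hA k
      omega
    · have := hAB k
      omega

/-- A linear form as a polynomial. -/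
def linPoly (φ : (σ → K) →ₗ[K] K) : MvPolynomial σ K :=
  ∑ j, C (φ (Pi.single j 1)) * X j

omit [Fintype K] in
theorem eval_linPoly (φ : (σ → K) →ₗ[K] K) (x : σ → K) : eval x (linPoly φ) = φ x := by
  conv_rhs => rw [pi_eq_sum_univ' x]
  simp [linPoly, mul_comm]

omit [Fintype K] in
theorem totalDegree_linPoly (φ : (σ → K) →ₗ[K] K) : (linPoly φ).totalDegree ≤ 1 :=
  (totalDegree_finsetSum _ _).trans (Finset.sup_le fun j _ =>
    (totalDegree_mul _ _).trans (by simp))

/-- **Warning's congruence**: parallel flats of dimension at least the degree. -/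
theorem parallel_congr (s : Finset ι) (f : ι → MvPolynomial σ K) (W : Submodule K (σ → K))
    (hd : sysDegree s f ≤ finrank K W) (a b : σ → K) :
    (#(onFlat s f a W) : K) = #(onFlat s f b W) := by
  set r := finrank K ((σ → K) ⧸ W) with hr
  set L := (finBasis K ((σ → K) ⧸ W)).equivFun
  set φ : Fin r → (σ → K) →ₗ[K] K := fun k =>
    (LinearMap.proj k).comp (L.toLinearMap.comp W.mkQ)
  set q1 := Fintype.card K - 1 with hq1
  have hq : 0 < q1 := by
    have := Fintype.one_lt_card (α := K)
    omega
  have hmem : ∀ c x, x - c ∈ W ↔ ∀ k, φ k x = φ k c := by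
    intro c x
    rw [← Submodule.Quotient.eq, ← L.injective.eq_iff, funext_iff]
    rfl
  set F : MvPolynomial σ K := ∏ i ∈ s, (1 - f i ^ q1)
  set H : (σ → K) → MvPolynomial σ K := fun c =>
    ∏ k, (1 - (linPoly (φ k) - C (φ k c)) ^ q1)
  have heval : ∀ c x, eval x (F * H c) =
      if x ∈ onFlat s f c W then 1 else 0 := by
    intro c x
    simp only [F, H, map_mul, map_prod, map_sub, map_one, map_pow, eval_C, eval_linPoly, onFlat,
      mem_filter, mem_zeros, hmem]
    split_ifs with h
    · rw [prod_eq_one fun i hi => by rw [h.1 i hi, zero_pow hq.ne', sub_zero],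
        prod_eq_one fun k _ => by rw [h.2 k, sub_self, zero_pow hq.ne', sub_zero], mul_one]
    · rcases not_and_or.1 h with h | h
      · push Not at h
        obtain ⟨i, hi, hne⟩ := h
        rw [prod_eq_zero hi (by rw [hq1, FiniteField.pow_card_sub_one_eq_one _ hne, sub_self]),
          zero_mul]
      · push Not at h
        obtain ⟨k, hne⟩ := h
        rw [prod_eq_zero (mem_univ k) (by
          rw [hq1, FiniteField.pow_card_sub_one_eq_one _ (sub_ne_zero.2 hne), sub_self]),
          mul_zero]
  have hsum : ∀ c, ∑ x, eval x (F * H c) = (#(onFlat s f c W) : K) := fun c => by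
    simp [heval, sum_ite_mem]
  rw [← hsum, ← hsum, ← sub_eq_zero, ← sum_sub_distrib]
  simp only [← map_sub, ← mul_sub]
  rcases Nat.eq_zero_or_pos r with h0 | hpos
  · have hH : ∀ c, H c = 1 := fun c => prod_eq_one fun k _ => absurd k.2 (by omega)
    simp [hH]
  refine sum_eval_eq_zero _ ((totalDegree_mul _ _).trans_lt ?_)
  have hlin : ∀ c k, (linPoly (φ k) - C (φ k c)).totalDegree ≤ 1 := fun c k =>
    (totalDegree_sub _ _).trans (by simp [totalDegree_linPoly])
  have hbd : ∀ c k, (1 - (linPoly (φ k) - C (φ k c)) ^ q1).totalDegree ≤ q1 := fun c k =>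
    (totalDegree_indicator _).trans ((Nat.mul_le_mul_left q1 (hlin c k)).trans_eq (mul_one q1))
  have h1 : (H a - H b).totalDegree ≤ r * q1 - 1 := by
    have h := totalDegree_prod_sub_prod univ _ _ (hbd a) (hbd b) fun k => by
      rw [show (1 - (linPoly (φ k) - C (φ k a)) ^ q1) - (1 - (linPoly (φ k) - C (φ k b)) ^ q1) =
        (linPoly (φ k) - C (φ k b)) ^ q1 - (linPoly (φ k) - C (φ k a)) ^ q1 by ring]
      exact totalDegree_pow_sub_pow (totalDegree_linPoly _) _ _ _
    rwa [card_univ, Fintype.card_fin] at h
  have h2 : F.totalDegree ≤ q1 * sysDegree s f := by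
    rw [sysDegree, mul_sum]
    exact (totalDegree_finsetProd _ _).trans (sum_le_sum fun i _ => totalDegree_indicator _)
  have h3 : finrank K W + r = Fintype.card σ := by
    rw [hr, add_comm, Submodule.finrank_quotient_add_finrank, finrank_pi]
  have h4 : 0 < r * q1 := Nat.mul_pos hpos hq
  have h5 : q1 * sysDegree s f + r * q1 ≤ q1 * Fintype.card σ := by
    rw [← h3, mul_add, mul_comm r q1]
    exact Nat.add_le_add_right (Nat.mul_le_mul_left _ hd) _
  calc F.totalDegree + (H a - H b).totalDegree
      < q1 * sysDegree s f + r * q1 := by omega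
    _ ≤ q1 * Fintype.card σ := h5

end FA.WarningSecond
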