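import Fermat.Agent.WarningSecond.Congruence

/-!
# Warning's second theorem

Take a flat through a zero of largest dimension `≤ d` with a count nonzero modulo `p`. If its
dimension is `d`, every parallel flat meets the zeros; otherwise every flat of one dimension more
through it has a zero outside it.
-/

set_option autoImplicit false

noncomputable section

open Finset Module
open Classical

namespace FA.WarningSecond

variable {K σ ι : Type*} [Field K] [Fintype K] [Fintype σ]

theorem card_zeros_ge (s : Finset ι) (f : ι → MvPolynomial σ K)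
    (hne : (zeros s f).Nonempty) :
    Fintype.card K ^ (Fintype.card σ - sysDegree s f) ≤ #(zeros s f) := by
  obtain ⟨a, ha⟩ := hne
  set n := Fintype.card σ
  set d := sysDegree s f
  set q := Fintype.card K
  have hq : 1 < q := Fintype.one_lt_card
  have hn : finrank K (σ → K) = n := finrank_pi K
  by_cases hdn : n ≤ d
  · rw [Nat.sub_eq_zero_of_le hdn, pow_zero]
    exact card_pos.2 ⟨a, ha⟩
  set good := fun t : ℕ => ∃ W : Submodule K (σ → K), finrank K W = t ∧
    (#(onFlat s f a W) : K) ≠ 0
  have h0 : good 0 := by
    refine ⟨⊥, finrank_bot K _, ?_⟩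
    have h : onFlat s f a (⊥ : Submodule K (σ → K)) = {a} := by
      ext x
      simp only [onFlat, mem_filter, Submodule.mem_bot, sub_eq_zero, mem_singleton]
      exact ⟨fun h => h.2, fun h => ⟨h ▸ ha, h⟩⟩
    simp [h]
  set t := Nat.findGreatest good d with ht
  obtain ⟨W, hW, hW0⟩ : good t := Nat.findGreatest_spec (Nat.zero_le d) h0
  have htd : t ≤ d := Nat.findGreatest_le d
  have hquot : Nat.card ((σ → K) ⧸ W) = q ^ (n - t) := by
    have h := Submodule.finrank_quotient_add_finrank W
    rw [natCard_eq_pow_finrank (K := K) (V := (σ → K) ⧸ W), Nat.card_eq_fintype_card]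
    congr 1
    omega
  rw [Nat.card_eq_fintype_card] at hquot
  rcases htd.eq_or_lt with htd | htd
  · -- every parallel flat
    have hsurj : ∀ y, ∃ z ∈ zeros s f, Submodule.Quotient.mk (p := W) z = y := by
      intro y
      obtain ⟨b, rfl⟩ := Submodule.Quotient.mk_surjective W y
      have h := parallel_congr s f W (by omega) a b
      obtain ⟨z, hz⟩ := Finset.nonempty_iff_ne_empty.2
        fun he : onFlat s f b W = ∅ => hW0 (by rw [h, he, card_empty, Nat.cast_zero])
      exact ⟨z, (mem_filter.1 hz).1, (Submodule.Quotient.eq W).2 (mem_filter.1 hz).2⟩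
    calc q ^ (n - d) = Fintype.card ((σ → K) ⧸ W) := by rw [hquot, htd]
      _ ≤ #((zeros s f).image (Submodule.Quotient.mk (p := W))) := by
        rw [← card_univ]
        refine card_le_card fun y _ => ?_
        obtain ⟨z, hz, hzy⟩ := hsurj y
        exact mem_image.2 ⟨z, hz, hzy⟩
      _ ≤ #(zeros s f) := card_image_le
  · -- flats of one dimension more
    set Z' := (zeros s f).filter fun x => x - a ∉ W
    set φ : (σ → K) → (σ → K) ⧸ W := fun x => Submodule.Quotient.mk (x - a)
    have hcov : (univ : Finset ((σ → K) ⧸ W)).erase 0 ⊆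
        ((univ.erase (0 : K)) ×ˢ Z').image fun p => p.1 • φ p.2 := by
      intro y hy
      have hy0 := (mem_erase.1 hy).1
      obtain ⟨v, rfl⟩ := Submodule.Quotient.mk_surjective W y
      have hv : v ∉ W := fun h => hy0 ((Submodule.Quotient.mk_eq_zero W).2 h)
      set W' := W ⊔ Submodule.span K {v} with hW'
      have hrank : finrank K W' = t + 1 := by
        have hd : Disjoint W (Submodule.span K {v}) := by
          rw [Submodule.disjoint_span_singleton]
          exact fun h => absurd h hv
        have h := Submodule.finrank_sup_add_finrank_inf_eq W (Submodule.span K {v})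
        rw [hd.eq_bot, finrank_bot,
          finrank_span_singleton (show v ≠ 0 from fun h => hv (h ▸ W.zero_mem)), hW,
          ← hW', add_zero] at h
        exact h
      have hbad : (#(onFlat s f a W') : K) = 0 := by
        by_contra h
        exact Nat.findGreatest_is_greatest (show t < t + 1 by omega) (by omega) ⟨W', hrank, h⟩
      obtain ⟨z, hz, hzW⟩ : ∃ z ∈ onFlat s f a W', z - a ∉ W := by
        by_contra h
        push Not at h
        apply hW0
        rw [show onFlat s f a W = onFlat s f a W' from ?_]
        · exact hbad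
        ext x
        simp only [onFlat, mem_filter]
        exact ⟨fun hx => ⟨hx.1, le_sup_left (α := Submodule K (σ → K)) hx.2⟩,
          fun hx => ⟨hx.1, h x (mem_filter.2 hx)⟩⟩
      obtain ⟨hzero, hzW'⟩ := mem_filter.1 hz
      obtain ⟨w, hw, u, hu, hwu⟩ := Submodule.mem_sup.1 hzW'
      obtain ⟨c, rfl⟩ := Submodule.mem_span_singleton.1 hu
      have hc : c ≠ 0 := fun h => hzW (by rw [← hwu, h, zero_smul, add_zero]; exact hw)
      refine mem_image.2 ⟨(c⁻¹, z), mem_product.2
        ⟨mem_erase.2 ⟨inv_ne_zero hc, mem_univ _⟩, mem_filter.2 ⟨hzero, hzW⟩⟩, ?_⟩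
      simp only [φ, ← hwu, Submodule.Quotient.mk_add, (Submodule.Quotient.mk_eq_zero W).2 hw,
        zero_add, Submodule.Quotient.mk_smul, inv_smul_smul₀ hc]
    have h1 := (card_le_card hcov).trans card_image_le
    rw [card_product, card_erase_of_mem (mem_univ _), card_erase_of_mem (mem_univ _), card_univ,
      card_univ, hquot] at h1
    obtain ⟨e, he⟩ : ∃ e, n - t = e + 1 := ⟨n - t - 1, by omega⟩
    have h2 : (q - 1) * q ^ e ≤ q ^ (n - t) - 1 := by
      rw [he, pow_succ', Nat.sub_one_mul]
      have : 1 ≤ q ^ e := Nat.one_le_pow _ _ (by omega)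
      omega
    have h3 : q ^ e ≤ #Z' := Nat.le_of_mul_le_mul_left (h2.trans h1) (by omega)
    exact (Nat.pow_le_pow_right (by omega) (by omega)).trans
      (h3.trans (card_filter_le _ _))

end FA.WarningSecond
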